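import Mathlib

/-!
# S12 (helper411), piece END, part 1: the trivial bound `#E(F) ≤ 2 #F + 1`

For a Weierstrass cubic `W` over a finite field `F` (any reduction type), the group of
nonsingular points has at most `2 · #F + 1` elements: at most two `y` for every `x`.
-/

set_option autoImplicit false

open WeierstrassCurve WeierstrassCurve.Affine Polynomial

namespace Fermat.Agent.S12.H411

variable {F : Type*} [Field F] (W : Affine F)

/-- the quadratic in `Y` cut out by the Weierstrass equation at a fixed `x` -/
noncomputable def fibrePoly (x : F) : F[X] :=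
  X ^ 2 + C (W.a₁ * x + W.a₃) * X - C (x ^ 3 + W.a₂ * x ^ 2 + W.a₄ * x + W.a₆)

lemma fibrePoly_natDegree (x : F) : (fibrePoly W x).natDegree = 2 := by
  unfold fibrePoly
  compute_degree!

lemma fibrePoly_ne_zero (x : F) : fibrePoly W x ≠ 0 := by
  intro h
  have := fibrePoly_natDegree W x
  rw [h, natDegree_zero] at this
  exact absurd this (by norm_num)

lemma isRoot_fibrePoly {x y : F} (h : W.Equation x y) : (fibrePoly W x).IsRoot y := by
  rw [equation_iff] at h
  simp only [fibrePoly, IsRoot.def, eval_sub, eval_add, eval_pow, eval_X, eval_mul, eval_C]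
  linear_combination h

/-- affine points as pairs -/
def pointPair [DecidableEq F] : W.Point → Option (Σ _ : F, F)
  | .zero => none
  | .some x y _ => some ⟨x, y⟩

lemma pointPair_injective [DecidableEq F] : Function.Injective (pointPair W) := by
  rintro (_ | ⟨x, y, h⟩) (_ | ⟨x', y', h'⟩) e
  · rfl
  · simp [pointPair] at e
  · simp [pointPair] at e
  · simp only [pointPair, Option.some.injEq, Sigma.mk.injEq, heq_eq_eq] at e
    obtain ⟨rfl, rfl⟩ := e
    rfl

/-- the points over a finite field form a finite set -/
theorem finite_point [Finite F] : Finite W.Point := by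
  classical
  exact Finite.of_injective (pointPair W) (pointPair_injective W)

/-- **Trivial point count.** -/
theorem natCard_point_le [Finite F] : Nat.card W.Point ≤ 2 * Nat.card F + 1 := by
  classical
  have := Fintype.ofFinite F
  let S : Finset (Σ _ : F, F) := Finset.univ.sigma fun x => (fibrePoly W x).roots.toFinset
  have hS : S.card ≤ 2 * Nat.card F := by
    rw [Finset.card_sigma]
    calc ∑ x : F, ((fibrePoly W x).roots.toFinset).card
        ≤ ∑ _x : F, 2 := Finset.sum_le_sum fun x _ => by
          calc ((fibrePoly W x).roots.toFinset).card ≤ Multiset.card (fibrePoly W x).roots :=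
                Multiset.toFinset_card_le _
            _ ≤ (fibrePoly W x).natDegree := card_roots' _
            _ = 2 := fibrePoly_natDegree W x
      _ = 2 * Nat.card F := by
          rw [Finset.sum_const, Finset.card_univ, Nat.card_eq_fintype_card, smul_eq_mul, mul_comm]
  let T : Finset (Option (Σ _ : F, F)) := insert none (S.map Function.Embedding.some)
  have hT : T.card ≤ 2 * Nat.card F + 1 := by
    calc T.card ≤ (S.map Function.Embedding.some).card + 1 := Finset.card_insert_le _ _
      _ = S.card + 1 := by rw [Finset.card_map]
      _ ≤ 2 * Nat.card F + 1 := by omega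
  have hmem : ∀ P : W.Point, pointPair W P ∈ T := by
    rintro (_ | ⟨x, y, h⟩)
    · exact Finset.mem_insert_self _ _
    · refine Finset.mem_insert_of_mem (Finset.mem_map.mpr ⟨⟨x, y⟩, ?_, rfl⟩)
      refine Finset.mem_sigma.mpr ⟨Finset.mem_univ _, ?_⟩
      rw [Multiset.mem_toFinset, mem_roots (fibrePoly_ne_zero W x)]
      exact isRoot_fibrePoly W h.1
  calc Nat.card W.Point ≤ Nat.card T :=
        Nat.card_le_card_of_injective (fun P => (⟨pointPair W P, hmem P⟩ : T))
          (fun P Q e => pointPair_injective W (congrArg Subtype.val e))
    _ = T.card := by rw [Nat.card_eq_fintype_card, Fintype.card_coe]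
    _ ≤ 2 * Nat.card F + 1 := hT

end Fermat.Agent.S12.H411
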