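import Mathlib
import Fermat.Agent.S12.H411.Count
import Fermat.Agent.S15.H242.Loc
import Fermat.Agent.S54.FrobExists

/-!
# S12 (helper411), piece END: rational torsion is bounded at a good prime

`W / ℤ`, `ℓ` a prime of good reduction, `C ⊂ W(ℚ̄)` a finite subgroup of Galois-fixed points
whose order is prime to `ℓ`.  Then `#C ≤ #W̃(𝔽_ℓ) ≤ 2 ℓ + 1`.

Proof: reduction at a place `A` over `ℓ` (`Lib.Red.H290.redHom`) is injective on torsion of
order prime to `ℓ` (`S05.C1b`); rational points reduce to points with coordinates in the prime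
field (`S15.H242`); count.

This is the END of the chain argument for Mazur's Step 4 (see
`coord/S12-step4-helper411.md`): a rational cyclic subgroup of order `p ^ k`, `p ≠ ℓ`, forces
`p ^ k ≤ 2 ℓ + 1`.
-/

set_option autoImplicit false

open WeierstrassCurve WeierstrassCurve.Affine

namespace Fermat.Agent.S12.H411

open Fermat.Agent.Lib.Red.H290 Fermat.Agent.S15.H242

/-- `ℚ̄`-points of the integral model `W` -/
abbrev Pts (W : WeierstrassCurve ℤ) : Type :=
  ((W.map (Int.castRingHom ℚ))⁄(AlgebraicClosure ℚ)).Point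

/-- the absolute Galois group -/
abbrev Gal : Type := AlgebraicClosure ℚ ≃ₐ[ℚ] AlgebraicClosure ℚ

section

variable (W : WeierstrassCurve ℤ) {ℓ : ℕ} (hℓ : ℓ.Prime)
  (A : ValuationSubring (AlgebraicClosure ℚ)) (hA : A.LiesOverPrime ℓ)

include hℓ hA in
lemma charP_residueField_h411 : CharP (IsLocalRing.ResidueField A) ℓ :=
  (CharP.charP_iff_prime_eq_zero hℓ).mpr (by
    have h0 : rd A (IsLocalRing.residue A) ((ℓ : ℤ) : AlgebraicClosure ℚ) = 0 :=
      rd_eq_zero_of_lt (kerMax_residue A) (by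
        have := (A.mem_nonunits_iff).mp hA
        simpa using this)
    rw [rd_intCast] at h0
    exact_mod_cast h0)

include hℓ hA in
lemma Δ_residue_ne_zero (hgood : ¬ (ℓ : ℤ) ∣ W.Δ) : (W⁄(IsLocalRing.ResidueField A)).Δ ≠ 0 := by
  have := charP_residueField_h411 hℓ A hA
  have e : (W⁄(IsLocalRing.ResidueField A)).Δ = ((W.Δ : ℤ) : IsLocalRing.ResidueField A) := by
    show (W.map (algebraMap ℤ (IsLocalRing.ResidueField A))).Δ = _
    rw [WeierstrassCurve.map_Δ, eq_intCast]
  rw [e, Ne, CharP.intCast_eq_zero_iff (IsLocalRing.ResidueField A) ℓ]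
  exact hgood

end

/-- a point with coordinates in the image of a subfield comes from the subfield -/
lemma exists_map_eq_some {F : Type*} [Field F] [DecidableEq F] {κ : Type*} [Field κ]
    [DecidableEq κ] (f : F →ₐ[ℤ] κ) (W : WeierstrassCurve ℤ)
    {X' Y' : κ} (hns : (W⁄κ).Nonsingular X' Y') {u w : F} (hu : f u = X') (hw : f w = Y') :
    ∃ P₀ : (W⁄F).Point, Point.map (W' := W) f P₀ = Point.some X' Y' hns := by
  subst hu hw
  have hns0 : (W⁄F).Nonsingular u w :=
    (Affine.baseChange_nonsingular W (f := f) f.injective u w).mp hns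
  exact ⟨Point.some u w hns0, Point.map_some f hns0⟩

/-- **END.**  A finite group of rational points of order prime to a good prime `ℓ` has at most
`2 ℓ + 1` elements. -/
theorem natCard_rational_le (W : WeierstrassCurve ℤ) {ℓ : ℕ} (hℓ : ℓ.Prime)
    (hgood : ¬ (ℓ : ℤ) ∣ W.Δ) (C : AddSubgroup (Pts W)) [Finite C]
    (hfix : ∀ σ : Gal, ∀ P ∈ C, σ • P = P) (hcop : ¬ ℓ ∣ Nat.card C) :
    Nat.card C ≤ 2 * ℓ + 1 := by
  classical
  obtain ⟨A, hA⟩ := Fermat.Agent.S54.exists_valuationSubring_liesOver ℓ hℓ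
  have : Fact ℓ.Prime := ⟨hℓ⟩
  have := charP_residueField_h411 hℓ A hA
  have hφ : KerMax A (IsLocalRing.residue A) := kerMax_residue A
  have hred : IsRedOf A (IsLocalRing.residue A)
      ((W.map (Int.castRingHom ℚ))⁄(AlgebraicClosure ℚ)) (W⁄(IsLocalRing.ResidueField A)) :=
    isRedOf_int A W (IsLocalRing.residue A)
  have hΔ := Δ_residue_ne_zero W hℓ A hA hgood
  let f : ZMod ℓ →ₐ[ℤ] IsLocalRing.ResidueField A :=
    (ZMod.castHom dvd_rfl (IsLocalRing.ResidueField A)).toIntAlgHom
  have hf : Function.Injective f := (f : ZMod ℓ →+* IsLocalRing.ResidueField A).injective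
  -- every rational point reduces into the image of `W(𝔽_ℓ)`
  have hrange : ∀ P ∈ C, ∃ P₀ : (W⁄(ZMod ℓ)).Point,
      Point.map (W' := W) f P₀ = red hred hΔ P := by
    intro P hP
    rcases P with _ | ⟨x, y, h⟩
    · exact ⟨0, rfl⟩
    · by_cases hx : x ∈ A
      · obtain ⟨⟨rx, hrx⟩, ⟨ry, hry⟩⟩ := coords_rational W h (fun σ => hfix σ _ hP)
        have hy : y ∈ A := y_mem_of_x_mem hred h.1 hx
        obtain ⟨u, hu⟩ := rd_algebraMap_rat_mem_range A hA hℓ (IsLocalRing.residue A)
          (f : ZMod ℓ →+* IsLocalRing.ResidueField A) rx (by rw [hrx]; exact hx)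
        obtain ⟨w, hw⟩ := rd_algebraMap_rat_mem_range A hA hℓ (IsLocalRing.residue A)
          (f : ZMod ℓ →+* IsLocalRing.ResidueField A) ry (by rw [hry]; exact hy)
        rw [hrx] at hu
        rw [hry] at hw
        rw [red_some_of_mem hred hΔ h hx]
        exact exists_map_eq_some f W _ hu hw
      · exact ⟨0, by rw [red_some_of_not_mem hred hΔ h hx]; rfl⟩
  -- the order of `C` is a unit at `A`
  have hv : A.valuation ((Nat.card C : ℕ) : AlgebraicClosure ℚ) = 1 := by
    have := val_intCast_eq_one A hA hℓ (b := (Nat.card C : ℤ)) (by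
      intro h
      exact hcop (by exact_mod_cast h))
    simpa using this
  have htors : ∀ P : C, Nat.card C • (P : Pts W) = 0 := fun P => by
    have h1 : Nat.card C • P = 0 := card_nsmul_eq_zero'
    have h2 : ((Nat.card C • P : C) : Pts W) = 0 := by rw [h1]; rfl
    rwa [AddSubgroup.coe_nsmul] at h2
  -- injection into `W(𝔽_ℓ)`
  choose g hg using hrange
  have hinj : Function.Injective fun P : C => g P.1 P.2 := by
    intro P Q e
    have e' : red hred hΔ (P : Pts W) = red hred hΔ (Q : Pts W) := by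
      rw [← hg P.1 P.2, ← hg Q.1 Q.2]
      exact congrArg _ e
    exact Subtype.ext (eq_of_red_eq_of_nsmul hred hφ hΔ _ hv _ _ (htors P) (htors Q) e')
  have hfinP : Finite (W⁄(ZMod ℓ)).Point := finite_point (W⁄(ZMod ℓ))
  calc Nat.card C ≤ Nat.card (W⁄(ZMod ℓ)).Point := Nat.card_le_card_of_injective _ hinj
    _ ≤ 2 * Nat.card (ZMod ℓ) + 1 := natCard_point_le (W⁄(ZMod ℓ))
    _ = 2 * ℓ + 1 := by rw [Nat.card_zmod]

end Fermat.Agent.S12.H411
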