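import Mathlib
import Fermat.Agent.S12.H411.End
import Fermat.Agent.S05.AssembleFrey
import Fermat.Agent.S13.H175.Minkowski

/-!
# S12 (helper411), piece RAT: rationality of a point from unramifiedness (Minkowski)

* `red_smul_of_mem_inertia` : at a place `A` of good reduction, inertia commutes with reduction;
* `smul_eq_of_mem_inertia_of_good` : inertia at a good place fixes every torsion point whose
  order is a unit at `A`;
* `smul_eq_of_mem_inertia_of_inKer_inter` : same for torsion points `R` of any order, as soon as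
  the subgroup generated by `R` meets the kernel of reduction trivially (used at `ℓ = p`);
* `fixed_of_unramified` : a torsion point `R` with `⟨R⟩` Galois-stable, fixed by one inertia
  group at every prime, is Galois-fixed (landed Minkowski `S13.H175.minkowski_subgroup`).
-/

set_option autoImplicit false
set_option linter.unusedSectionVars false

open WeierstrassCurve WeierstrassCurve.Affine

namespace Fermat.Agent.S12.H411

open Fermat.Agent.Lib.Red.H290 Fermat.Agent.S15.H242
open Fermat.Agent.S05.SameRed (IntegralCoeffs InKer)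

section action

variable {W : WeierstrassCurve ℤ}

lemma gal_smul_def (σ : Gal) (P : Pts W) :
    σ • P = Point.map (W' := W.map (Int.castRingHom ℚ)) σ.toAlgHom P := rfl

lemma gal_smul_some (σ : Gal) {x y : AlgebraicClosure ℚ}
    (h : ((W.map (Int.castRingHom ℚ))⁄(AlgebraicClosure ℚ)).Nonsingular x y) :
    ∃ h', σ • (Point.some x y h : Pts W) = (Point.some (σ x) (σ y) h' : Pts W) :=
  ⟨_, Point.map_some (W' := W.map (Int.castRingHom ℚ)) σ.toAlgHom h⟩

lemma gal_smul_zero (σ : Gal) : σ • (0 : Pts W) = 0 := rfl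

lemma gal_smul_add (σ : Gal) (P Q : Pts W) : σ • (P + Q) = σ • P + σ • Q := by
  rw [gal_smul_def, gal_smul_def, gal_smul_def, map_add]

lemma gal_smul_sub (σ : Gal) (P Q : Pts W) : σ • (P - Q) = σ • P - σ • Q := by
  rw [gal_smul_def, gal_smul_def, gal_smul_def, map_sub]

lemma gal_smul_nsmul (σ : Gal) (n : ℕ) (P : Pts W) : σ • (n • P) = n • (σ • P) := by
  rw [gal_smul_def, gal_smul_def, map_nsmul]

lemma gal_smul_zsmul (σ : Gal) (n : ℤ) (P : Pts W) : σ • (n • P) = n • (σ • P) := by
  rw [gal_smul_def, gal_smul_def, map_zsmul]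

end action

section inertia

variable (A : ValuationSubring (AlgebraicClosure ℚ))

lemma mem_of_mem_inertia {σ : Gal} (hσ : σ ∈ A.inertiaSubgroupIn ℚ) {z : AlgebraicClosure ℚ}
    (hz : z ∈ A) : σ z ∈ A := by
  have h1 := Fermat.Agent.S05.Assemble.inertia_res A hσ z ((A.valuation_le_one_iff z).mpr hz)
  have h2 : σ z - z ∈ A := (A.valuation_le_one_iff _).mp h1.le
  have : σ z = (σ z - z) + z := by ring
  rw [this]
  exact A.add_mem _ _ h2 hz

lemma mem_iff_of_mem_inertia {σ : Gal} (hσ : σ ∈ A.inertiaSubgroupIn ℚ)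
    (z : AlgebraicClosure ℚ) : σ z ∈ A ↔ z ∈ A := by
  refine ⟨fun h => ?_, mem_of_mem_inertia A hσ⟩
  have hσ' : σ⁻¹ ∈ A.inertiaSubgroupIn ℚ := Subgroup.inv_mem _ hσ
  have := mem_of_mem_inertia A hσ' h
  simpa using this

lemma rd_smul_of_mem_inertia {κ : Type*} [Field κ] {φ : A →+* κ} (hφ : KerMax A φ) {σ : Gal}
    (hσ : σ ∈ A.inertiaSubgroupIn ℚ) {z : AlgebraicClosure ℚ} (hz : z ∈ A) :
    rd A φ (σ z) = rd A φ z := by
  rw [rd_eq_iff hφ (mem_of_mem_inertia A hσ hz) hz]
  exact Fermat.Agent.S05.Assemble.inertia_res A hσ z ((A.valuation_le_one_iff z).mpr hz)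

end inertia

section good

variable {W : WeierstrassCurve ℤ} {A : ValuationSubring (AlgebraicClosure ℚ)}
  {κ : Type*} [Field κ] [DecidableEq κ] {φ : A →+* κ}
  (hred : IsRedOf A φ ((W.map (Int.castRingHom ℚ))⁄(AlgebraicClosure ℚ)) (W⁄κ))
  (hφ : KerMax A φ) (hΔ : (W⁄κ).Δ ≠ 0)

include hφ in
/-- inertia commutes with reduction -/
theorem red_smul_of_mem_inertia {σ : Gal} (hσ : σ ∈ A.inertiaSubgroupIn ℚ) (P : Pts W) :
    red hred hΔ (σ • P) = red hred hΔ P := by
  classical
  rcases P with _ | ⟨x, y, h⟩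
  · rfl
  · obtain ⟨h', e⟩ := gal_smul_some σ h
    rw [e]
    by_cases hx : x ∈ A
    · have hy : y ∈ A := y_mem_of_x_mem hred h.1 hx
      rw [red_some_of_mem hred hΔ _ (mem_of_mem_inertia A hσ hx), red_some_of_mem hred hΔ h hx]
      simp only [Point.some.injEq]
      exact ⟨rd_smul_of_mem_inertia A hφ hσ hx, rd_smul_of_mem_inertia A hφ hσ hy⟩
    · rw [red_some_of_not_mem hred hΔ _ (fun h' => hx ((mem_iff_of_mem_inertia A hσ x).mp h')),
        red_some_of_not_mem hred hΔ h hx]

include hred hφ hΔ in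
/-- At a good place, inertia moves a point only inside the kernel of reduction. -/
theorem inKer_smul_sub_of_mem_inertia {σ : Gal} (hσ : σ ∈ A.inertiaSubgroupIn ℚ) (P : Pts W) :
    InKer ((W.map (Int.castRingHom ℚ))⁄(AlgebraicClosure ℚ)) A.valuation (σ • P - P) := by
  classical
  rw [← red_eq_zero_iff hred hΔ]
  have := (redHom hred hφ hΔ).map_sub (σ • P) P
  simp only [redHom_apply] at this
  rw [this, red_smul_of_mem_inertia hred hφ hΔ hσ, sub_self]

include hred hφ hΔ in
/-- Inertia at a good place fixes torsion of order prime to the residue characteristic. -/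
theorem smul_eq_of_mem_inertia_of_good {σ : Gal} (hσ : σ ∈ A.inertiaSubgroupIn ℚ)
    (n : ℕ) (hn : A.valuation ((n : ℕ) : AlgebraicClosure ℚ) = 1) (P : Pts W)
    (hP : n • P = 0) : σ • P = P := by
  classical
  have hσP : n • (σ • P) = 0 := by
    rw [← gal_smul_nsmul, hP, gal_smul_zero]
  exact eq_of_red_eq_of_nsmul hred hφ hΔ n hn _ _ hσP hP
    (red_smul_of_mem_inertia hred hφ hΔ hσ P)

end good

/-- **Minkowski for a torsion point.**  If `⟨R⟩` is Galois-stable and, at every prime, the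
inertia group of ONE place fixes `R`, then `R` is Galois-fixed. -/
theorem fixed_of_unramified (W : WeierstrassCurve ℤ) (R : Pts W)
    (hstab : ∀ σ : Gal, ∃ m : ℤ, σ • R = m • R)
    (hunr : ∀ q : ℕ, q.Prime → ∃ A : ValuationSubring (AlgebraicClosure ℚ),
      A.LiesOverPrime q ∧ ∀ σ ∈ A.inertiaSubgroupIn ℚ, σ • R = R) :
    ∀ σ : Gal, σ • R = R := by
  classical
  let H : Subgroup Gal := MulAction.stabilizer Gal R
  have hH : H.Normal := by
    refine ⟨fun σ hσ τ => ?_⟩
    rw [MulAction.mem_stabilizer_iff] at hσ ⊢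
    obtain ⟨m, hm⟩ := hstab τ⁻¹
    have h1 : (τ * σ * τ⁻¹) • R = τ • σ • τ⁻¹ • R := by rw [mul_smul, mul_smul]
    rw [h1, hm, gal_smul_zsmul, hσ, ← hm, smul_inv_smul]
  have hopen : ∃ s : Finset (AlgebraicClosure ℚ), ∀ σ : Gal, (∀ x ∈ s, σ x = x) → σ ∈ H := by
    rcases hR : R with _ | ⟨x, y, h⟩
    · exact ⟨∅, fun σ _ => by
        rw [MulAction.mem_stabilizer_iff, hR]; rfl⟩
    · refine ⟨{x, y}, fun σ hσ => ?_⟩
      rw [MulAction.mem_stabilizer_iff, hR]
      have hx : σ x = x := hσ x (by simp)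
      have hy : σ y = y := hσ y (by simp)
      obtain ⟨h', e⟩ := gal_smul_some σ h
      rw [e]
      simp only [Point.some.injEq]
      exact ⟨hx, hy⟩
  have htop := Fermat.Agent.S13.H175.minkowski_subgroup H hH hopen (fun q hq => by
    obtain ⟨A, hA, hAR⟩ := hunr q hq
    exact ⟨A, hA, fun σ hσ => MulAction.mem_stabilizer_iff.mpr (hAR σ hσ)⟩)
  intro σ
  have : σ ∈ H := by rw [htop]; exact Subgroup.mem_top σ
  exact MulAction.mem_stabilizer_iff.mp this

end Fermat.Agent.S12.H411
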