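import Mathlib
import Fermat.Agent.Ribet.H403.DetFrey
import Fermat.Agent.S13.H64.AtP
import Fermat.Agent.S13.H64.LineP
import Fermat.Agent.S41.H701.LinAlg2

/-!
# Row S12 (one-step route), local leaf at `ℓ = p` (helper411)

For a Frey package and a cofixed line `N ⊂ E[p]`:

* `cofixed_line_smul_eq_det` (linear algebra): an endomorphism of a plane which preserves a line
  `N` and is the identity on `V / N` acts on `N` through its determinant;
* `frey_line_smul` : `σ • T = χ_p(σ) • T` for `T ∈ N` (`det ρ̄ = χ_p`, landed `Ribet.H403`);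
* `frey_line_inKer` : at EVERY valuation subring `A` of `ℚ̄` over `p`, the line `N` lies in the
  kernel of reduction (inertia acts on `N` through `χ_p`, which is ramified at `p`, and moves
  integral `p`-torsion points only inside the kernel of reduction, landed `S13.H64`);
* `frey_line_x_not_mem` : the `x`-coordinate of a nonzero point of `N` is NOT in `A`;
* `frey_line_val_sub` : hence `v (x(T) - e) = v (x(T))` for every `e ∈ A`: the three products
  `Π_j = ∏ (x(kT₀) - ε_j)` of the one-step route have the SAME valuation at `A`.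
-/

set_option autoImplicit false

open WeierstrassCurve WeierstrassCurve.Affine WeierstrassCurve.Affine.Point

namespace Fermat.Agent.S12.H411

open Module in
/-- An endomorphism `f` of a plane which preserves a line `N` and induces the identity on `V / N`
acts on `N` as multiplication by `det f`. -/
theorem cofixed_line_smul_eq_det {k V : Type*} [Field k] [AddCommGroup V] [Module k V]
    (hdim : finrank k V = 2) (f : End k V) (N : Submodule k V) (hbot : N ≠ ⊥) (htop : N ≠ ⊤)
    (hstab : ∀ x ∈ N, f x ∈ N) (hcof : ∀ x : V, f x - x ∈ N) :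
    ∀ x ∈ N, f x = LinearMap.det f • x := by
  have hfd : FiniteDimensional k V := FiniteDimensional.of_finrank_pos (by omega)
  -- `N` is a line
  have hN1 : finrank k N = 1 := by
    have h1 : finrank k N < 2 := by
      rw [← hdim]
      exact Submodule.finrank_lt htop
    have h0 : 0 < finrank k N := by
      rw [Module.finrank_pos_iff]
      exact (Submodule.nontrivial_iff_ne_bot).mpr hbot
    omega
  obtain ⟨n₀, hn₀, hn₀0⟩ := (Submodule.ne_bot_iff N).1 hbot
  have hspan : ∀ x ∈ N, ∃ c : k, x = c • n₀ := by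
    intro x hx
    obtain ⟨c, hc⟩ := (finrank_eq_one_iff_of_nonzero' (⟨n₀, hn₀⟩ : N)
      (fun h => hn₀0 (congrArg Subtype.val h))).1 hN1 ⟨x, hx⟩
    exact ⟨c, by simpa using (congrArg Subtype.val hc).symm⟩
  obtain ⟨a, ha⟩ := hspan (f n₀) (hstab n₀ hn₀)
  have hfa : ∀ x ∈ N, f x = a • x := by
    intro x hx
    obtain ⟨c, rfl⟩ := hspan x hx
    rw [map_smul, ha, smul_smul, smul_smul, mul_comm]
  suffices hdet : LinearMap.det f = a by
    intro x hx
    rw [hdet]
    exact hfa x hx
  by_cases hsc : ∃ s : k, f = s • (1 : End k V)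
  · obtain ⟨s, hs⟩ := hsc
    have hsa : s = a := by
      have h1 : f n₀ = s • n₀ := by rw [hs]; rfl
      rw [ha] at h1
      have h2 : (a - s) • n₀ = 0 := by rw [sub_smul, h1, sub_self]
      rcases smul_eq_zero.1 h2 with h | h
      · exact (sub_eq_zero.1 h).symm
      · exact absurd h hn₀0
    have hs1 : s = 1 := by
      by_contra hne
      apply htop
      rw [eq_top_iff]
      intro y _
      have hy := hcof y
      have h1 : f y = s • y := by rw [hs]; rfl
      rw [h1] at hy
      have h2 : s • y - y = (s - 1) • y := by rw [sub_smul, one_smul]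
      rw [h2] at hy
      have h3 : y = (s - 1)⁻¹ • ((s - 1) • y) := by
        rw [smul_smul, inv_mul_cancel₀ (sub_ne_zero.2 hne), one_smul]
      rw [h3]
      exact N.smul_mem _ hy
    rw [← hsa, hs1, hs, hs1, one_smul]
    exact LinearMap.det_id
  · push Not at hsc
    apply Fermat.Agent.S41.H701.det_eq_of_quadratic_h701 hdim f (1 + a) a ?_ hsc
    apply LinearMap.ext
    intro x
    have h1 := hfa _ (hcof x)
    simp only [map_sub] at h1
    simp only [LinearMap.add_apply, LinearMap.sub_apply, LinearMap.smul_apply,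
      Module.End.mul_apply, Module.End.one_apply, LinearMap.zero_apply]
    have h2 : f (f x) = f x + (a • (f x - x)) := by
      rw [← h1]; abel
    rw [h2, add_smul, one_smul, smul_sub]
    abel

open Fermat.Agent.Ribet.H403 Fermat.Agent.S55.H414 in
/-- Galois acts on a cofixed line of the Frey representation through the mod `p` cyclotomic
character. -/
theorem frey_line_smul (P : FreyPackage)
    (N : Submodule (ZMod P.p) (Tors P.freyCurve P.p))
    (hstab : IsGaloisStable (K := AlgebraicClosure ℚ) ℚ N) (hbot : N ≠ ⊥) (htop : N ≠ ⊤)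
    (hcof : ∀ σ : GQ, ∀ x : Tors P.freyCurve P.p, σ • x - x ∈ N) (σ : GQ) :
    haveI : NeZero P.p := ⟨P.hp0⟩
    ∀ x ∈ N, σ • x = ((cycloPow P.p σ : (ZMod P.p)ˣ) : ZMod P.p) • x := by
  have : Fact P.p.Prime := ⟨P.pp⟩
  have : NeZero P.p := ⟨P.hp0⟩
  intro x hx
  have hdim : Module.finrank (ZMod P.p) (Tors P.freyCurve P.p) = 2 :=
    finrank_tors P.freyCurve (Fermat.Agent.S13.H891.freyCurve_Δ_ne_zero P) P.p
  have := cofixed_line_smul_eq_det hdim
    (galoisRepModuleEnd (S := ℚ) (K := AlgebraicClosure ℚ) P.freyCurve P.p σ) N hbot htop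
    (fun y hy => hstab σ y hy) (fun y => hcof σ y) x hx
  rw [frey_det_eq_cycloPow P σ] at this
  exact this

open Fermat.Agent.Ribet.H403 Fermat.Agent.S55.H414 Fermat.Agent.S05 Fermat.Agent.S05.SameRed
  Fermat.Agent.S05.Assemble in
/-- **LOCp.**  At every valuation subring of `ℚ̄` over `p`, a cofixed line of the Frey
representation lies in the kernel of reduction. -/
theorem frey_line_inKer (P : FreyPackage)
    (N : Submodule (ZMod P.p) (Tors P.freyCurve P.p))
    (hstab : IsGaloisStable (K := AlgebraicClosure ℚ) ℚ N) (hbot : N ≠ ⊥) (htop : N ≠ ⊤)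
    (hcof : ∀ σ : GQ, ∀ x : Tors P.freyCurve P.p, σ • x - x ∈ N)
    (A : ValuationSubring (AlgebraicClosure ℚ)) (hA : A.LiesOverPrime P.p)
    (T : Tors P.freyCurve P.p) (hT : T ∈ N) :
    InKer (P.freyCurve⁄(AlgebraicClosure ℚ)) A.valuation
      (T : (P.freyCurve⁄(AlgebraicClosure ℚ)).Point) := by
  have : Fact P.p.Prime := ⟨P.pp⟩
  have : NeZero P.p := ⟨P.hp0⟩
  have hp2 : P.p ≠ 2 := by have := P.hp5; omega
  have hW := frey_integral (P := P) hA P.pp hp2
  rcases hTe : (T : (P.freyCurve⁄(AlgebraicClosure ℚ)).Point) with _ | ⟨x, y, h⟩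
  · trivial
  by_contra hnk
  have hx : A.valuation x ≤ 1 := not_lt.mp hnk
  obtain ⟨σ, hσ, hne⟩ := exists_inertia_cycloPow_ne_one P.p hp2 A hA
  have h1 := frey_line_smul P N hstab hbot htop hcof σ T hT
  set c : ZMod P.p := ((cycloPow P.p σ : (ZMod P.p)ˣ) : ZMod P.p) with hc
  have hc1 : c - 1 ≠ 0 := by
    intro h0
    apply hne
    apply Units.ext
    rw [Units.val_one]
    exact sub_eq_zero.mp h0
  have hP : P.p • Point.some x y h = 0 := by
    rw [← hTe, ← natCast_zsmul]
    exact (Submodule.mem_torsionBy_iff _ _).mp T.2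
  have hker := Fermat.Agent.S13.H64.frey_inKer_smul_sub P P.pp hp2 A hA σ hσ h hP hx
  -- `T = u • (σ T - T)` with `u = (c - 1)⁻¹`
  have h2 : T = ((c - 1)⁻¹.val : ℕ) • (σ • T - T) := by
    rw [← Nat.cast_smul_eq_nsmul (ZMod P.p), ZMod.natCast_zmod_val, h1,
      show c • T - T = (c - 1) • T by rw [sub_smul, one_smul], smul_smul,
      inv_mul_cancel₀ hc1, one_smul]
  have h3 : (T : (P.freyCurve⁄(AlgebraicClosure ℚ)).Point) =
      ((c - 1)⁻¹.val : ℕ) • (σ • (T : (P.freyCurve⁄(AlgebraicClosure ℚ)).Point) -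
        (T : (P.freyCurve⁄(AlgebraicClosure ℚ)).Point)) := by
    conv_lhs => rw [h2]
    rfl
  rw [hTe] at h3
  have h4 := Fermat.Agent.S13.H64.inKer_nsmul hW hker ((c - 1)⁻¹.val)
  rw [← h3] at h4
  exact hnk h4

open Fermat.Agent.Ribet.H403 Fermat.Agent.S05 Fermat.Agent.S05.SameRed in
/-- **LOCp**, coordinate form: the `x`-coordinate of a nonzero point of a cofixed line is not
integral at any place over `p`. -/
theorem frey_line_x_not_mem (P : FreyPackage)
    (N : Submodule (ZMod P.p) (Tors P.freyCurve P.p))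
    (hstab : IsGaloisStable (K := AlgebraicClosure ℚ) ℚ N) (hbot : N ≠ ⊥) (htop : N ≠ ⊤)
    (hcof : ∀ σ : GQ, ∀ x : Tors P.freyCurve P.p, σ • x - x ∈ N)
    (A : ValuationSubring (AlgebraicClosure ℚ)) (hA : A.LiesOverPrime P.p)
    (T : Tors P.freyCurve P.p) (hT : T ∈ N) {x y : AlgebraicClosure ℚ}
    (h : (P.freyCurve⁄(AlgebraicClosure ℚ)).Nonsingular x y)
    (hTe : (T : (P.freyCurve⁄(AlgebraicClosure ℚ)).Point) = Point.some x y h) :
    1 < A.valuation x := by
  have := frey_line_inKer P N hstab hbot htop hcof A hA T hT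
  rw [hTe] at this
  exact this

/-- If `x` is not integral and `e` is, then `v (x - e) = v x`. -/
theorem val_sub_eq_of_one_lt {K : Type*} [Field K] {Γ₀ : Type*}
    [LinearOrderedCommGroupWithZero Γ₀] (v : Valuation K Γ₀) {x e : K} (hx : 1 < v x)
    (he : v e ≤ 1) : v (x - e) = v x :=
  Valuation.map_sub_eq_of_lt_left v (lt_of_le_of_lt he hx)

end Fermat.Agent.S12.H411
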