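import Mathlib
import Fermat.Agent.S15.H242.Psi2
import Fermat.Agent.S15.H242.Loc
import Fermat.Agent.S13.H164.Frey
import Fermat.Agent.S05.AssembleFrey

/-!
# Row S12 (one-step route), local leaves at `ℓ ≠ p` (helper411)

Frey curve `E : y² + xy = x³ + ((b^p - 1 - a^p)/4) x² - (a^p b^p/16) x` over `ℚ̄`, with
`2`-torsion `x = 0, a^p/4, -b^p/4`; `A` a valuation subring of `ℚ̄` over a prime `ℓ ≠ p`,
`v = A.valuation`.

* `frey_isRedOf` : the reduction datum of the Frey curve at `A` (Lib/Red language);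
* `frey_toric_point` : a point `T ∈ E⁰(A)` of order `p` is integral and `η(T) = 2y + a₁x + a₃`
  is a unit (`S15.H242.val_psi2_eq_one_of_inE0`);
* `frey_val_factors` : for an integral point with `η` a unit,
  `v(x) = 1`, `v(x + b^p/4) = 1`, `v(4) · v(x - a^p/4) = 1`   (ANY residue characteristic,
  `ℓ = 2` included: the three factors of `η² = 4 x (x - a^p/4)(x + b^p/4)`);
* `frey_inE0_of_good` : at a prime of good reduction every point lies in `E⁰`;
* `frey_factor_vals_of_inE0` : the valuation table of the one-step route at `ℓ ≠ p` for a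
  point of order `p` in `E⁰(A)`: toric line ⇒ `v(Π₁) = v(Π₃) = 1`, `v(4)^(p-1) v(Π₂) = 1`.
-/

set_option autoImplicit false

open WeierstrassCurve WeierstrassCurve.Affine WeierstrassCurve.Affine.Point

namespace Fermat.Agent.S12.H411

open Fermat.Agent.Lib.Red.H290 Fermat.Agent.S15.H242 Fermat.Agent.S05.Assemble
open Fermat.Agent.S05.SameRed (IntegralCoeffs)

/-- The reduction datum of the Frey curve at a valuation subring of `ℚ̄`. -/
lemma frey_isRedOf (P : FreyPackage) (A : ValuationSubring (AlgebraicClosure ℚ)) :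
    IsRedOf A (IsLocalRing.residue A) (P.freyCurve⁄(AlgebraicClosure ℚ))
      (P.freyCurveInt⁄(IsLocalRing.ResidueField A)) := by
  rw [Fermat.Agent.S13.H164.freyCurve_eq_map]
  exact isRedOf_int A P.freyCurveInt (IsLocalRing.residue A)

/-- `b ^ p / 4` is integral at every valuation subring. -/
lemma val_fB_div_four_le_one (P : FreyPackage) (A : ValuationSubring (AlgebraicClosure ℚ)) :
    A.valuation (fB P / 4) ≤ 1 := by
  have hb : (2 : ℤ) ∣ P.b := (ZMod.intCast_zmod_eq_zero_iff_dvd P.b 2).1 P.hb2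
  obtain ⟨k, hk⟩ := hb
  obtain ⟨j, hj⟩ : ∃ j, P.p = j + 2 := ⟨P.p - 2, by have := P.hp5; omega⟩
  have e : fB P / 4 = ((2 ^ j * k ^ P.p : ℤ) : AlgebraicClosure ℚ) := by
    have h4 : (P.b ^ P.p : ℤ) = 4 * (2 ^ j * k ^ P.p) := by
      rw [hk, mul_pow, show (2 : ℤ) ^ P.p = 2 ^ j * 4 by rw [hj, pow_add]; norm_num]
      ring
    rw [fB, h4]
    push_cast
    field_simp
  rw [e]
  exact val_int_le_one (A := A) _

/-- A point of order `p` in `E⁰(A)`, `A` over `ℓ ≠ p`, is integral with `η` a unit. -/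
theorem frey_toric_point (P : FreyPackage) {ℓ : ℕ} (hℓ : ℓ.Prime) (hℓp : ℓ ≠ P.p)
    (A : ValuationSubring (AlgebraicClosure ℚ)) (hA : A.LiesOverPrime ℓ)
    (T : (P.freyCurve⁄(AlgebraicClosure ℚ)).Point) (hord : addOrderOf T = P.p)
    (hT : InE0 A (IsLocalRing.residue A) (P.freyCurveInt⁄(IsLocalRing.ResidueField A)) T) :
    ∃ (x y : AlgebraicClosure ℚ) (h : (P.freyCurve⁄(AlgebraicClosure ℚ)).Nonsingular x y),
      T = Point.some x y h ∧ A.valuation x ≤ 1 ∧
      A.valuation (2 * y + (P.freyCurve⁄(AlgebraicClosure ℚ)).a₁ * x +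
        (P.freyCurve⁄(AlgebraicClosure ℚ)).a₃) = 1 := by
  classical
  have hred := frey_isRedOf P A
  have hφ : KerMax A (IsLocalRing.residue A) := kerMax_residue A
  have hp2 : P.p ≠ 2 := by have := P.hp5; omega
  have hv : A.valuation ((P.p : ℕ) : AlgebraicClosure ℚ) = 1 :=
    val_natCast_eq_one A hA hℓ P.pp hℓp
  have hordred := addOrderOf_red0 hred hφ P.pp hv hT hord
  have hpsi := val_psi2_eq_one_of_inE0 hred hφ P.pp hp2 hv hT hord (k := 1)
    (fun h => P.pp.one_lt.ne' (Nat.dvd_one.mp h))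
  rw [one_smul] at hpsi
  rcases T with _ | ⟨x, y, h⟩
  · rw [show (Point.zero : (P.freyCurve⁄(AlgebraicClosure ℚ)).Point) = 0 from rfl,
      addOrderOf_zero] at hord
    exact absurd hord P.pp.one_lt.ne
  · refine ⟨x, y, h, rfl, ?_, ?_⟩
    · by_contra hx
      have hx' : x ∉ A := fun hmem => hx ((A.valuation_le_one_iff x).mpr hmem)
      rw [red0_some_of_not_mem h hx', addOrderOf_zero] at hordred
      exact P.pp.one_lt.ne hordred
    · simpa using hpsi

/-- **Valuation of the three factors.**  For an integral point of the Frey curve with `η` a unit: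
`v(x) = 1`, `v(x + b^p/4) = 1` and `v(4) · v(x - a^p/4) = 1`.  No hypothesis on the residue
characteristic. -/
theorem frey_val_factors (P : FreyPackage) (A : ValuationSubring (AlgebraicClosure ℚ))
    {x y : AlgebraicClosure ℚ} (h : (P.freyCurve⁄(AlgebraicClosure ℚ)).Equation x y)
    (hx : A.valuation x ≤ 1)
    (hη : A.valuation (2 * y + (P.freyCurve⁄(AlgebraicClosure ℚ)).a₁ * x +
        (P.freyCurve⁄(AlgebraicClosure ℚ)).a₃) = 1) :
    A.valuation x = 1 ∧ A.valuation (x + fB P / 4) = 1 ∧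
      A.valuation 4 * A.valuation (x - fA P / 4) = 1 := by
  have hsq := (frey_roots P).eta_sq h
  have e : (2 * y + (P.freyCurve⁄(AlgebraicClosure ℚ)).a₁ * x +
      (P.freyCurve⁄(AlgebraicClosure ℚ)).a₃) ^ 2 = x * (x + fB P / 4) * (4 * (x - fA P / 4)) := by
    rw [hsq]; ring
  have hv := congrArg A.valuation e
  rw [map_pow, hη, one_pow, map_mul, map_mul] at hv
  have h1 : A.valuation (x + fB P / 4) ≤ 1 :=
    (A.valuation).map_add_le hx (val_fB_div_four_le_one P A)
  have h2 : A.valuation (4 * (x - fA P / 4)) ≤ 1 := by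
    have e2 : 4 * (x - fA P / 4) = 4 * x - fA P := by field_simp
    rw [e2]
    apply (A.valuation).map_sub_le
    · rw [map_mul]
      have h4 : A.valuation (4 : AlgebraicClosure ℚ) ≤ 1 := by
        have := val_nat_le_one (A := A) 4
        simpa using this
      exact mul_le_one' h4 hx
    · exact val_fA_le_one (P := P) (A := A)
  -- a product of three elements `≤ 1` equal to `1`
  have hx1 : A.valuation x = 1 := by
    refine le_antisymm hx ?_
    calc (1 : _) = A.valuation x * A.valuation (x + fB P / 4) *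
          A.valuation (4 * (x - fA P / 4)) := hv
      _ ≤ A.valuation x * 1 * 1 := by gcongr
      _ = A.valuation x := by rw [mul_one, mul_one]
  have hB1 : A.valuation (x + fB P / 4) = 1 := by
    refine le_antisymm h1 ?_
    calc (1 : _) = A.valuation x * A.valuation (x + fB P / 4) *
          A.valuation (4 * (x - fA P / 4)) := hv
      _ ≤ 1 * A.valuation (x + fB P / 4) * 1 := by gcongr
      _ = A.valuation (x + fB P / 4) := by rw [mul_one, one_mul]
  have hA1 : A.valuation (4 * (x - fA P / 4)) = 1 := by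
    refine le_antisymm h2 ?_
    calc (1 : _) = A.valuation x * A.valuation (x + fB P / 4) *
          A.valuation (4 * (x - fA P / 4)) := hv
      _ ≤ 1 * 1 * A.valuation (4 * (x - fA P / 4)) := by gcongr
      _ = A.valuation (4 * (x - fA P / 4)) := by rw [one_mul, one_mul]
  refine ⟨hx1, hB1, ?_⟩
  rw [← map_mul]
  exact hA1

/-- At a prime of good reduction of the Frey model every point lies in `E⁰`. -/
theorem frey_inE0_of_good (P : FreyPackage) {ℓ : ℕ} (hℓ : ℓ.Prime)
    (hgood : ¬ (ℓ : ℤ) ∣ P.freyCurveInt.Δ)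
    (A : ValuationSubring (AlgebraicClosure ℚ)) (hA : A.LiesOverPrime ℓ)
    (T : (P.freyCurve⁄(AlgebraicClosure ℚ)).Point) :
    InE0 A (IsLocalRing.residue A) (P.freyCurveInt⁄(IsLocalRing.ResidueField A)) T := by
  rcases T with _ | ⟨x, y, h⟩
  · trivial
  · intro hx
    have hred := frey_isRedOf P A
    have hy : y ∈ A := y_mem_of_x_mem hred h.1 hx
    have heq := rd_equation hred hx hy h.1
    have hΔ : (P.freyCurveInt⁄(IsLocalRing.ResidueField A)).Δ ≠ 0 := by
      have hchar : CharP (IsLocalRing.ResidueField A) ℓ :=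
        (CharP.charP_iff_prime_eq_zero hℓ).mpr (by
          have h0 : rd A (IsLocalRing.residue A) ((ℓ : ℤ) : AlgebraicClosure ℚ) = 0 :=
            rd_eq_zero_of_lt (kerMax_residue A) (by
              have := (A.mem_nonunits_iff).mp hA
              simpa using this)
          rw [rd_intCast] at h0
          exact_mod_cast h0)
      have e : (P.freyCurveInt⁄(IsLocalRing.ResidueField A)).Δ =
          ((P.freyCurveInt.Δ : ℤ) : IsLocalRing.ResidueField A) := by
        show (P.freyCurveInt.map (algebraMap ℤ (IsLocalRing.ResidueField A))).Δ = _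
        rw [WeierstrassCurve.map_Δ, eq_intCast]
      rw [e, Ne, CharP.intCast_eq_zero_iff (IsLocalRing.ResidueField A) ℓ]
      exact hgood
    exact (Affine.equation_iff_nonsingular_of_Δ_ne_zero hΔ).mp heq

/-- **Valuation table at `ℓ ≠ p`, toric case.**  If `T` has order `p` and lies in `E⁰(A)`
(`A` over `ℓ ≠ p`, ANY `ℓ`), then `T = (x, y)` with
`v(x) = 1`, `v(x + b^p/4) = 1`, `v(4) · v(x - a^p/4) = 1`. -/
theorem frey_factor_vals_of_inE0 (P : FreyPackage) {ℓ : ℕ} (hℓ : ℓ.Prime) (hℓp : ℓ ≠ P.p)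
    (A : ValuationSubring (AlgebraicClosure ℚ)) (hA : A.LiesOverPrime ℓ)
    (T : (P.freyCurve⁄(AlgebraicClosure ℚ)).Point) (hord : addOrderOf T = P.p)
    (hT : InE0 A (IsLocalRing.residue A) (P.freyCurveInt⁄(IsLocalRing.ResidueField A)) T) :
    ∃ (x y : AlgebraicClosure ℚ) (h : (P.freyCurve⁄(AlgebraicClosure ℚ)).Nonsingular x y),
      T = Point.some x y h ∧ A.valuation x = 1 ∧ A.valuation (x + fB P / 4) = 1 ∧
        A.valuation 4 * A.valuation (x - fA P / 4) = 1 := by
  obtain ⟨x, y, h, rfl, hx, hη⟩ := frey_toric_point P hℓ hℓp A hA T hord hT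
  exact ⟨x, y, h, rfl, frey_val_factors P A h.1 hx hη⟩

end Fermat.Agent.S12.H411
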