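import Fermat.Agent.S12.H291.Local
import Fermat.Agent.S12.H411.LocP
import Fermat.Agent.S12.H411.LocPi
import Fermat.Agent.Ribet.H104.FreyModelAtP

/-!
# Row S12 (one-step route): the local leaves in the shapes of `S12/H291/Local.lean` (helper411)

* `locP_h411 : H291.LocPStatement`       — the term statement at `ℓ = p` (cofixed line ⊂ kernel of
  reduction, `S12/H411/LocP.lean`);
* `locGood_h411 : H291.LocGoodStatement` — the term statement at the primes `ℓ ∤ 2·p·abc`;
* `termAt_of_inE0_h411`                  — TORIC ⇒ TERM: a point of order `p` in `E⁰(A)`,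
  `A` over ANY prime `ℓ ≠ p` (`ℓ = 2` included), satisfies `H291.TermAt`;
* `loc2_of_toric_h411`, `locBad_of_toric_h411` — the leaves `Loc2`, `LocBad` from "the cofixed
  line is toric at `A`".
-/

set_option autoImplicit false

open WeierstrassCurve WeierstrassCurve.Affine WeierstrassCurve.Affine.Point

namespace Fermat.Agent.S12.H411

open Fermat.Agent.S12.H291 Fermat.Agent.S05.Assemble Fermat.Agent.S15.H242

lemma eps₂_eq_h411 (P : FreyPackage) : eps₂ P = fA P / 4 := by
  simp only [eps₂, fA]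
  push_cast
  simp

lemma eps₃_eq_h411 (P : FreyPackage) : eps₃ P = -(fB P / 4) := by
  simp only [eps₃, fB]
  push_cast
  simp [neg_div]

/-- **TORIC ⇒ TERM.**  A point of order `p` of the Frey curve lying in `E⁰(A)`, `A` over a prime
`ℓ ≠ p` (any `ℓ`, `2` included), satisfies the term statement. -/
theorem termAt_of_inE0_h411 (P : FreyPackage) {ℓ : ℕ} (hℓ : ℓ.Prime) (hℓp : ℓ ≠ P.p)
    (A : ValuationSubring (AlgebraicClosure ℚ)) (hA : A.LiesOverPrime ℓ) (T : FreyPt P)
    (hord : addOrderOf T = P.p)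
    (hT : InE0 A (IsLocalRing.residue A) (P.freyCurveInt⁄(IsLocalRing.ResidueField A)) T) :
    TermAt P A T := by
  obtain ⟨x, y, h, rfl, hx, hB, hA4⟩ := frey_factor_vals_of_inE0 P hℓ hℓp A hA T hord hT
  unfold TermAt
  rw [xc_some, sub_zero, eps₃_eq_h411, eps₂_eq_h411, sub_neg_eq_add, hB, hx]
  exact ⟨rfl, hA4.symm⟩

/-- **LEAF LocP.** -/
theorem locP_h411 : LocPStatement := by
  intro P _ N hN T hTN hT A hA
  have hp2 : P.p ≠ 2 := by have := P.hp5; omega
  have hT' : (T : FreyPt P) ≠ 0 := fun h => hT (Subtype.ext h)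
  rcases hTe : (T : FreyPt P) with _ | ⟨x, y, h⟩
  · exact absurd hTe hT'
  have hx : 1 < A.valuation x :=
    frey_line_x_not_mem P N hN.stable hN.ne_bot hN.ne_top hN.cofixed A hA T hTN h hTe
  have h4 : A.valuation (4 : AlgebraicClosure ℚ) = 1 := val_four_eq_one hA P.pp hp2
  have h2 : A.valuation (eps₂ P) ≤ 1 := by
    rw [eps₂_eq_h411, map_div₀, h4, div_one]
    exact val_fA_le_one (P := P) (A := A)
  have h3 : A.valuation (eps₃ P) ≤ 1 := by
    rw [eps₃_eq_h411, Valuation.map_neg]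
    exact val_fB_div_four_le_one P A
  unfold TermAt
  rw [xc_some, sub_zero, val_sub_eq_of_one_lt _ hx h3, val_sub_eq_of_one_lt _ hx h2, h4, one_mul]
  exact ⟨rfl, rfl⟩

/-- **LEAF LocGood.** -/
theorem locGood_h411 : LocGoodStatement := by
  intro P _ N _ T _ hT ℓ hℓ _ hℓp hndvd A hA
  have hgood : ¬ (ℓ : ℤ) ∣ P.freyCurveInt.Δ := fun h =>
    hndvd (Fermat.Agent.Ribet.H104.dvd_abc_of_dvd_Δ P (Nat.prime_iff_prime_int.mp hℓ) h)
  exact termAt_of_inE0_h411 P hℓ hℓp A hA T (addOrderOf_eq_of_mem_torsion T hT)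
    (frey_inE0_of_good P hℓ hgood A hA T)

/-- The node "the cofixed lines of the Frey curve are toric at `2`": every point of a cofixed line
has nonsingular reduction at every place over `2`. -/
def Toric2Statement : Prop :=
  ∀ (P : FreyPackage), 17 ≤ P.p →
    ∀ N : Submodule (ZMod P.p) (Submodule.torsionBy ℤ (FreyPt P) P.p), IsCofixedLine P N →
    ∀ T : Submodule.torsionBy ℤ (FreyPt P) P.p, T ∈ N →
    ∀ A : ValuationSubring (AlgebraicClosure ℚ), A.LiesOverPrime 2 →
      InE0 A (IsLocalRing.residue A) (P.freyCurveInt⁄(IsLocalRing.ResidueField A))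
        (T : FreyPt P)

/-- **LEAF Loc2** from the toric node at `2`. -/
theorem loc2_of_toric_h411 (h : Toric2Statement) : Loc2Statement := by
  intro P hp N hN T hTN hT A hA
  have hp2 : 2 ≠ P.p := by have := P.hp5; omega
  exact termAt_of_inE0_h411 P Nat.prime_two hp2 A hA T (addOrderOf_eq_of_mem_torsion T hT)
    (h P hp N hN T hTN A hA)

/-- The node "the cofixed lines of the Frey curve are toric at the odd bad primes `ℓ ≠ p`". -/
def ToricBadStatement : Prop :=
  ∀ (P : FreyPackage), 17 ≤ P.p →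
    ∀ N : Submodule (ZMod P.p) (Submodule.torsionBy ℤ (FreyPt P) P.p), IsCofixedLine P N →
    ∀ T : Submodule.torsionBy ℤ (FreyPt P) P.p, T ∈ N →
    ∀ (ℓ : ℕ), ℓ.Prime → ℓ ≠ 2 → ℓ ≠ P.p → (ℓ : ℤ) ∣ P.a * P.b * P.c →
    ∀ A : ValuationSubring (AlgebraicClosure ℚ), A.LiesOverPrime ℓ →
      InE0 A (IsLocalRing.residue A) (P.freyCurveInt⁄(IsLocalRing.ResidueField A))
        (T : FreyPt P)

/-- **LEAF LocBad** from the toric node at the odd bad primes. -/
theorem locBad_of_toric_h411 (h : S15Statement → ToricBadStatement) : LocBadStatement := by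
  intro hS15 P hp N hN T hTN hT ℓ hℓ hℓ2 hℓp hdvd A hA
  exact termAt_of_inE0_h411 P hℓ hℓp A hA T (addOrderOf_eq_of_mem_torsion T hT)
    (h hS15 P hp N hN T hTN ℓ hℓ hℓ2 hℓp hdvd A hA)

/-- **Row S12, one-step route**: frozen S12 from frozen S15 and the two toric nodes. -/
theorem s12_of_toric_h411 (hS15 : S15Statement) (h2 : Toric2Statement)
    (hB : S15Statement → ToricBadStatement) (P : FreyPackage) (hp : 17 ≤ P.p) :
    ¬ HasGaloisStableCofixedLine (K := AlgebraicClosure ℚ) ℚ P.freyCurve P.p :=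
  s12_of_leaves hS15 (loc2_of_toric_h411 h2) locP_h411 locGood_h411 (locBad_of_toric_h411 hB) P hp

end Fermat.Agent.S12.H411
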