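import Mathlib
import Fermat.Agent.S12.Core.Top
import Fermat.Agent.S12.H411.End

/-!
# Row S12, node END (helper411)

`endStatement : Core.EndStatement` : for a prime `p` and a finite set `S` of primes, the length of a
chain of stages `Stage p S k` is bounded: choose a prime `ℓ₀ ∉ S`, `ℓ₀ ≠ p`; a stage-`k` model has
good reduction at `ℓ₀`, and the reduction is injective on the pointwise rational subgroup `C` of
order `p ^ k`, hence `p ^ k ≤ 2 ℓ₀ + 1` (`natCard_rational_le`).
-/

set_option autoImplicit false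

open WeierstrassCurve WeierstrassCurve.Affine

namespace Fermat.Agent.S12.H411

/-- **NODE END** of row S12 in the exact shape of `Core.EndStatement`. -/
theorem endStatement : Fermat.Agent.S12.Core.EndStatement := by
  intro p _ S
  have hp : p.Prime := Fact.out
  -- a prime outside `S ∪ {p}`
  obtain ⟨ℓ₀, hℓ₀ge, hℓ₀⟩ := Nat.exists_infinite_primes ((insert p S).sup id + 1)
  have hnot : ℓ₀ ∉ insert p S := by
    intro hmem
    have : id ℓ₀ ≤ (insert p S).sup id := Finset.le_sup (f := id) hmem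
    simp only [id] at this
    omega
  have hne : ℓ₀ ≠ p := fun h => hnot (h ▸ Finset.mem_insert_self _ _)
  have hS : ℓ₀ ∉ S := fun h => hnot (Finset.mem_insert_of_mem h)
  refine ⟨2 * ℓ₀ + 1, ?_⟩
  rintro k ⟨s⟩
  have hgood : ¬ (ℓ₀ : ℤ) ∣ s.W.Δ := fun h => hS (s.bad_mem ℓ₀ hℓ₀ h)
  have hfin : Finite s.C := by
    apply Nat.finite_of_card_ne_zero
    rw [s.card]
    exact pow_ne_zero _ hp.ne_zero
  have hcop : ¬ ℓ₀ ∣ Nat.card s.C := by
    rw [s.card]
    intro h
    exact hne ((Nat.prime_dvd_prime_iff_eq hℓ₀ hp).1 (hℓ₀.dvd_of_dvd_pow h))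
  have := natCard_rational_le s.W hℓ₀ hgood s.C s.fixed hcop
  rwa [s.card] at this

end Fermat.Agent.S12.H411
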