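import Mathlib

/-!
# S12 (helper411), chain step: pure group theory

`φ : G → G'` an isogeny-like map (kernel inside `G[p]`), `P ∈ G` of order `p ^ k` (`k ≥ 1`),
divisible by `p`, with `Q := p^(k-1) • P ∉ ker φ` and `φ (G[p]) = ⟨φ Q⟩`.  Then
`R := φ (S₀)`, `p • S₀ = P`, has order `p ^ (k+1)`, `p • R = φ P`, `p ^ k • R = φ Q`, and every
pair of compatible automorphisms fixing `P` moves `R` inside `⟨p ^ k • R⟩`.
-/

set_option autoImplicit false

namespace Fermat.Agent.S12.H411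

theorem chain_step {G G' : Type*} [AddCommGroup G] [AddCommGroup G'] (φ : G →+ G')
    {p k : ℕ} (hp : p.Prime) (hk : 1 ≤ k) (P : G)
    (hdiv : ∃ S : G, p • S = P)
    (hQ : φ (p ^ (k - 1) • P) ≠ 0) (hPk : p ^ k • P = 0)
    (hspan : ∀ x : G, p • x = 0 → ∃ a : ℕ, φ x = a • φ (p ^ (k - 1) • P)) :
    ∃ R : G', addOrderOf R = p ^ (k + 1) ∧ p • R = φ P ∧ p ^ k • R = φ (p ^ (k - 1) • P) ∧
      ∀ (s : G →+ G) (s' : G' →+ G'), (∀ x, φ (s x) = s' (φ x)) → s P = P →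
        ∃ a : ℕ, s' R = R + a • (p ^ k • R) := by
  have : Fact p.Prime := ⟨hp⟩
  obtain ⟨S, hS⟩ := hdiv
  have hpk : p ^ k = p ^ (k - 1) * p := by
    rw [← pow_succ, Nat.sub_add_cancel hk]
  have h1 : p • φ S = φ P := by rw [← map_nsmul, hS]
  have h2 : p ^ k • φ S = φ (p ^ (k - 1) • P) := by
    rw [hpk, mul_smul, ← map_nsmul, ← map_nsmul, hS]
  refine ⟨φ S, ?_, h1, h2, ?_⟩
  · have h3 : p ^ (k + 1) • φ S = 0 := by
      rw [pow_succ, mul_smul, h1, ← map_nsmul, hPk, map_zero]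
    have h4 : ¬ p ^ k • φ S = 0 := by rw [h2]; exact hQ
    exact addOrderOf_eq_prime_pow h4 h3
  · intro s s' hs hsP
    have h5 : p • (s S - S) = 0 := by
      rw [smul_sub, ← map_nsmul, hS, hsP, sub_self]
    obtain ⟨a, ha⟩ := hspan _ h5
    refine ⟨a, ?_⟩
    rw [h2, ← ha, map_sub, hs]
    abel

end Fermat.Agent.S12.H411
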