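import Mathlib
import Fermat.Agent.S15.H782.UValFinal
import Fermat.Agent.S41.H701.FinrankTorsion

/-!
# Row S12 (one-step route): `E[p] ∩ E⁰ ≠ 0` at a multiplicative place (helper411)

`W : WeierstrassCurve ℤ`, `A` a valuation subring of `ℚ̄` over a prime `ℓ` of multiplicative
reduction (`ℓ ∣ Δ`, `ℓ ∤ c₄`; `ℓ = 2`, `ℓ = 3` and `ℓ = p` allowed), `p` a prime.  The component map
of a node model (`S13.H365.NodeModel.comp`) sends `E[p]` into the `p`-torsion of
`Γˣ / ⟨v(a)²⟩`, which has at most `p` elements because `Γˣ` is torsion-free.  As `#E[p] = p²`,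
two distinct points of `E[p]` have the same component and their difference is a point of order
`p` in `E⁰`.

* `mk_eq_mk_of_pow_eq_h411` : the group-theoretic core;
* `exists_ne_comp_eq_h411` : two distinct `p`-torsion points with the same component;
* `exists_order_inE0_h411` : a point of order `p` in `E⁰` (node-model form, `S15.H242.InE0` form
  and Prelude form `InZeroComponentAt`).
-/

set_option autoImplicit false

open WeierstrassCurve WeierstrassCurve.Affine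

namespace Fermat.Agent.S12.H411

open Fermat.Agent.S13.H365 Fermat.Agent.S05.Comp

section group

variable {G : Type*} [CommGroup G]

/-- In a torsion-free commutative group, two elements whose `p`-th powers are powers `g ^ k₁`,
`g ^ k₂` of `g` with `k₁ ≡ k₂ mod p` have the same class modulo `⟨g⟩`. -/
lemma mk_eq_mk_of_pow_eq_h411 (htf : ∀ x : G, ∀ n : ℕ, n ≠ 0 → x ^ n = 1 → x = 1) (g : G)
    {p : ℕ} (hp : p ≠ 0) {x₁ x₂ : G} {k₁ k₂ : ℤ} (h₁ : x₁ ^ p = g ^ k₁) (h₂ : x₂ ^ p = g ^ k₂)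
    (hk : (k₁ : ZMod p) = (k₂ : ZMod p)) :
    (QuotientGroup.mk x₁ : G ⧸ Subgroup.zpowers g) = QuotientGroup.mk x₂ := by
  obtain ⟨m, hm⟩ : (p : ℤ) ∣ k₂ - k₁ := by
    rw [← ZMod.intCast_zmod_eq_zero_iff_dvd]
    push_cast
    rw [hk, sub_self]
  have h1 : (x₁⁻¹ * x₂ * (g ^ m)⁻¹) ^ p = 1 := by
    rw [mul_pow, mul_pow, inv_pow, inv_pow, h₁, h₂, ← zpow_natCast (g ^ m), ← zpow_mul,
      ← zpow_neg, ← zpow_neg, ← zpow_add, ← zpow_add]
    have : -k₁ + k₂ + -(m * (p : ℤ)) = 0 := by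
      have : k₂ = k₁ + p * m := by linarith
      rw [this]; ring
    rw [this, zpow_zero]
  have h2 := htf _ p hp h1
  rw [QuotientGroup.eq]
  have h3 : x₁⁻¹ * x₂ = g ^ m := by
    have := mul_inv_eq_one.mp h2
    exact this
  rw [h3]
  exact Subgroup.zpow_mem_zpowers g m

end group

section node

variable {K : Type*} [Field K] [DecidableEq K] {Γ₀ : Type*} [LinearOrderedCommGroupWithZero Γ₀]
variable {v : Valuation K Γ₀} {W : Affine K}

lemma units_torsionFree_h411 (x : Γ₀ˣ) (n : ℕ) (hn : n ≠ 0) (h : x ^ n = 1) : x = 1 := by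
  apply Units.ext
  have h' : ((x : Γ₀)) ^ n = 1 := by
    rw [← Units.val_pow_eq_pow_val, h, Units.val_one]
  rw [Units.val_one]
  exact (pow_eq_one_iff_of_nonneg zero_le hn).mp h'

/-- Among more than `p` points killed by `p`, two distinct ones have the same component. -/
theorem exists_ne_comp_eq_h411 (M : NodeModel v W) {p : ℕ} (hp : p ≠ 0)
    (S : Finset W.Point) (hS : ∀ T ∈ S, p • T = 0) (hcard : p < S.card) :
    ∃ T₁ ∈ S, ∃ T₂ ∈ S, T₁ ≠ T₂ ∧ M.comp T₁ = M.comp T₂ := by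
  classical
  have : NeZero p := ⟨hp⟩
  -- representatives and exponents
  have key : ∀ T : W.Point, p • T = 0 →
      ∃ (x : Γ₀ˣ) (k : ℤ), M.comp T = QuotientGroup.mk x ∧ x ^ p = (toU (v M.a) ^ 2) ^ k := by
    intro T hT
    obtain ⟨x, hx⟩ := QuotientGroup.mk_surjective (M.comp T)
    have h1 : (QuotientGroup.mk (x ^ p) : CompGroup v M.a) = 1 := by
      rw [QuotientGroup.mk_pow, hx, ← M.comp_nsmul, hT, NodeModel.comp_zero]
    rw [QuotientGroup.eq_one_iff] at h1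
    obtain ⟨k, hk⟩ := Subgroup.mem_zpowers_iff.mp h1
    exact ⟨x, k, hx.symm, hk.symm⟩
  let F : W.Point → ZMod p := fun T =>
    if hT : p • T = 0 then (((key T hT).choose_spec.choose : ℤ) : ZMod p) else 0
  have hmaps : ∀ T ∈ S, F T ∈ (Finset.univ : Finset (ZMod p)) := fun _ _ => Finset.mem_univ _
  have hlt : (Finset.univ : Finset (ZMod p)).card < S.card := by
    rw [Finset.card_univ, ZMod.card]; exact hcard
  obtain ⟨T₁, h₁, T₂, h₂, hne, hF⟩ := Finset.exists_ne_map_eq_of_card_lt_of_maps_to hlt hmaps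
  refine ⟨T₁, h₁, T₂, h₂, hne, ?_⟩
  have e₁ := (key T₁ (hS T₁ h₁)).choose_spec.choose_spec
  have e₂ := (key T₂ (hS T₂ h₂)).choose_spec.choose_spec
  simp only [F, dif_pos (hS T₁ h₁), dif_pos (hS T₂ h₂)] at hF
  rw [e₁.1, e₂.1]
  exact mk_eq_mk_of_pow_eq_h411 units_torsionFree_h411 _ hp e₁.2 e₂.2 hF

/-- Among more than `p` points killed by a prime `p`, there are two whose difference is a point
of order `p` in `E⁰`. -/
theorem exists_order_nodeInE0_h411 (M : NodeModel v W) {p : ℕ} (hp : p.Prime)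
    (S : Finset W.Point) (hS : ∀ T ∈ S, p • T = 0) (hcard : p < S.card) :
    ∃ T : W.Point, addOrderOf T = p ∧ M.InE0 T := by
  obtain ⟨T₁, h₁, T₂, h₂, hne, hc⟩ := exists_ne_comp_eq_h411 M hp.ne_zero S hS hcard
  have : Fact p.Prime := ⟨hp⟩
  refine ⟨T₁ - T₂, ?_, M.inE0_sub_of_comp_eq hc⟩
  apply addOrderOf_eq_prime
  · rw [smul_sub, hS T₁ h₁, hS T₂ h₂, sub_zero]
  · exact sub_ne_zero.mpr hne

end node

section int

variable {W : WeierstrassCurve ℤ} {A : ValuationSubring (AlgebraicClosure ℚ)}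

open Fermat.Agent.S15.H782 Fermat.Agent.S15.H242 Fermat.Agent.Lib.Red.H290

/-- **`E[p] ∩ E⁰ ≠ 0`, node-model form.**  At a place over a prime of multiplicative reduction,
for every node model there is a point of order `p` away from the node. -/
theorem exists_order_inE0_node_h411 (hΔ : W.Δ ≠ 0) {p : ℕ} (hp : p.Prime)
    (M : NodeModel A.valuation ((W.map (Int.castRingHom ℚ))⁄(AlgebraicClosure ℚ))) :
    ∃ T : ((W.map (Int.castRingHom ℚ))⁄(AlgebraicClosure ℚ)).Point,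
      addOrderOf T = p ∧ M.InE0 T := by
  classical
  have hell : ((W.map (Int.castRingHom ℚ))⁄(AlgebraicClosure ℚ)).IsElliptic := by
    constructor
    rw [isUnit_iff_ne_zero, Δ_bar_eq]
    exact Int.cast_ne_zero.mpr hΔ
  have hfin : Finite (Submodule.torsionBy ℤ
      ((W.map (Int.castRingHom ℚ))⁄(AlgebraicClosure ℚ)).Point p) :=
    Fermat.Agent.S41.H701.finite_torsion_prelude_h701 (W.map (Int.castRingHom ℚ)) p hp.one_le
  have hcard := Fermat.Agent.S41.H701.card_torsion_eq_sq_prelude_h701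
    (K := AlgebraicClosure ℚ) (W.map (Int.castRingHom ℚ)) p hp.one_le
  let _inst := Fintype.ofFinite (Submodule.torsionBy ℤ
      ((W.map (Int.castRingHom ℚ))⁄(AlgebraicClosure ℚ)).Point p)
  set S : Finset ((W.map (Int.castRingHom ℚ))⁄(AlgebraicClosure ℚ)).Point :=
    Finset.univ.map ⟨fun T : Submodule.torsionBy ℤ
      ((W.map (Int.castRingHom ℚ))⁄(AlgebraicClosure ℚ)).Point p => (T : _), Subtype.val_injective⟩
    with hSdef
  have hS : ∀ T ∈ S, p • T = 0 := by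
    intro T hT
    rw [hSdef, Finset.mem_map] at hT
    obtain ⟨T', -, rfl⟩ := hT
    have := (Submodule.mem_torsionBy_iff _ _).mp T'.2
    rwa [natCast_zsmul] at this
  have hSc : p < S.card := by
    rw [hSdef, Finset.card_map, Finset.card_univ, ← Nat.card_eq_fintype_card, hcard]
    calc p = p ^ 1 := (pow_one p).symm
      _ < p ^ 2 := Nat.pow_lt_pow_right hp.one_lt (by norm_num)
  exact exists_order_nodeInE0_h411 M hp S hS hSc

/-- **`E[p] ∩ E⁰ ≠ 0`** at a place over a prime `ℓ` of multiplicative reduction (`ℓ = 2`, `3`, `p`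
allowed): there is a point of order `p` with nonsingular reduction. -/
theorem exists_order_inE0_h411 (hΔ : W.Δ ≠ 0) {p : ℕ} (hp : p.Prime)
    {ℓ : ℕ} (hℓ : ℓ.Prime) (hℓΔ : (ℓ : ℤ) ∣ W.Δ) (hℓc₄ : ¬ (ℓ : ℤ) ∣ W.c₄)
    (hA : A.LiesOverPrime ℓ) :
    ∃ T : ((W.map (Int.castRingHom ℚ))⁄(AlgebraicClosure ℚ)).Point,
      addOrderOf T = p ∧
      InE0 A (IsLocalRing.residue A) (W⁄(IsLocalRing.ResidueField A)) T := by
  obtain ⟨M, he⟩ := exists_nodeModel_int hΔ hℓ hℓΔ hℓc₄ hA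
  obtain ⟨T, hT, hE⟩ := exists_order_inE0_node_h411 hΔ hp M
  exact ⟨T, hT, inE0_of_nodeModel_inE0 (isRedOf_int A W (IsLocalRing.residue A))
    (kerMax_residue A) M he hE⟩

/-- **`E[p] ∩ E⁰ ≠ 0`**, Prelude form. -/
theorem exists_order_inZeroComponentAt_h411 (hΔ : W.Δ ≠ 0) {p : ℕ} (hp : p.Prime)
    {ℓ : ℕ} (hℓ : ℓ.Prime) (hℓΔ : (ℓ : ℤ) ∣ W.Δ) (hℓc₄ : ¬ (ℓ : ℤ) ∣ W.c₄)
    (hA : A.LiesOverPrime ℓ) :
    ∃ T : ((W.map (Int.castRingHom ℚ))⁄(AlgebraicClosure ℚ)).Point,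
      addOrderOf T = p ∧ W.InZeroComponentAt A T := by
  obtain ⟨T, hT, hE⟩ := exists_order_inE0_h411 hΔ hp hℓ hℓΔ hℓc₄ hA
  exact ⟨T, hT, inZeroComponentAt_of_inE0 W A hE⟩

end int

end Fermat.Agent.S12.H411
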